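/-
P-MW / MW-A1-ANLOC-GLOB (helper58, row 714): the global properties of the explicit logarithmic
form `logNum / logDen` on the upper half plane: holomorphy, nonvanishing of the denominator and
weight two automorphy under `Γ₀(N)`.
-/
import Fermat.Agent.H84.MWDiv.Interfaces2
import Fermat.Agent.H77.EsAMFFinal

set_option autoImplicit false

noncomputable section

open UpperHalfPlane Filter Topology
open scoped MatrixGroups Manifold

namespace Fermat.Agent.H58.MWDiv

open Fermat.Agent.H23.EsA Fermat.Agent.H84.MWDiv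

/-- The derivative of a holomorphic function on `ℍ` is holomorphic. -/
theorem lfg_mdiff_dH {A : ℍ → ℂ} (hA : MDiff A) : MDiff (dH A) := by
  rw [UpperHalfPlane.mdifferentiable_iff] at hA ⊢
  have hDeriv : DifferentiableOn ℂ (fun z ↦ deriv (A ∘ ofComplex) z) upperHalfPlaneSet :=
    hA.deriv isOpen_upperHalfPlaneSet
  refine hDeriv.congr ?_
  intro z hz
  simp [dH, Function.comp_apply, ofComplex_apply_of_im_pos hz]

/-- The derivative of an invariant holomorphic function has weight two. -/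
theorem lfg_dH_smul {A : ℍ → ℂ} (hA : MDiff A) (γ : SL(2, ℤ))
    (hinv : ∀ z : ℍ, A (γ • z) = A z) (z : ℍ) :
    dH A (γ • z) = denom γ z ^ 2 * dH A z := by
  have hdet : 0 < ((γ : GL (Fin 2) ℝ)).det.val := by
    simp
  have hdet' : 0 < ((γ : GL (Fin 2) ℝ)).val.det := by
    rw [← Matrix.GeneralLinearGroup.val_det_apply]; exact hdet
  have hdet1 : ((γ : GL (Fin 2) ℝ)).val.det = 1 :=
    (Matrix.SpecialLinearGroup.map (Int.castRingHom ℝ) γ).det_coe
  have hz := denom_ne_zero (γ : GL (Fin 2) ℝ) z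
  have h_smul : HasDerivAt (fun w ↦ ↑((γ : GL (Fin 2) ℝ) • ofComplex w) : ℂ → ℂ)
      ((((γ : GL (Fin 2) ℝ)).val.det : ℂ) / denom (γ : GL (Fin 2) ℝ) z ^ 2) ↑z :=
    (hasStrictDerivAt_smul hdet' z).hasDerivAt
  have h_F : HasDerivAt (A ∘ ofComplex)
      (deriv (A ∘ ofComplex) ↑((γ : GL (Fin 2) ℝ) • ofComplex (z : ℂ)))
      ↑((γ : GL (Fin 2) ℝ) • ofComplex (z : ℂ)) :=
    (ofComplex_apply z).symm ▸
      (mdifferentiableAt_iff.mp (hA ((γ : GL (Fin 2) ℝ) • z))).hasDerivAt
  have hcomp : (A ∘ ofComplex) =ᶠ[𝓝 ↑z]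
      fun w ↦ (A ∘ ofComplex) ↑((γ : GL (Fin 2) ℝ) • ofComplex w) := by
    filter_upwards [isOpen_upperHalfPlaneSet.mem_nhds z.im_pos] with w hw
    simp only [Function.comp_apply, ofComplex_apply]
    exact (hinv (ofComplex w)).symm
  have hd := ((h_F.comp (z : ℂ) h_smul).congr_of_eventuallyEq hcomp).deriv
  rw [hdet1, ofComplex_apply] at hd
  have hd' : dH A z = dH A (γ • z) * (1 / denom γ z ^ 2) := by
    simpa [dH] using hd
  rw [hd']
  have hz2 : denom γ z ^ 2 ≠ 0 := pow_ne_zero _ hz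
  field_simp

/-- A function representing a nonzero element of the function field is not the zero function. -/
theorem lfg_rep_ne_zero {N : ℕ} {h : ℍ → ℂ} {f : ↥(FC N)} (hf : f ≠ 0) (H : Rep N h f) :
    h ≠ 0 := by
  rintro rfl
  apply hf
  have := Fermat.Agent.H44.LaurentRel.unique_right H Fermat.Agent.H44.laurentRel_zero
  exact Subtype.ext this

/-- **[A1-ANLOC-GLOB]** (row 714): holomorphy, nonvanishing of the denominator and weight two
automorphy of the explicit logarithmic form. -/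
theorem logFormGlobal (N : ℕ) [NeZero N] : LogFormGlobalStatement N := by
  intro y G A B C E hdata hy
  obtain ⟨a, b, c, e, hb, he, hyb, hGe, hAa, hBb, hCc, hEe⟩ := hdata
  have ha : a ≠ 0 := by rw [← hyb]; exact mul_ne_zero hy hb
  have hA : MDiff A := Fermat.Agent.H44.LaurentRel.mdifferentiable hAa
  have hB : MDiff B := Fermat.Agent.H44.LaurentRel.mdifferentiable hBb
  have hC : MDiff C := Fermat.Agent.H44.LaurentRel.mdifferentiable hCc
  have hE : MDiff E := Fermat.Agent.H44.LaurentRel.mdifferentiable hEe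
  have hdA : MDiff (dH A) := lfg_mdiff_dH hA
  have hdB : MDiff (dH B) := lfg_mdiff_dH hB
  have hreg := Fermat.Agent.H77.esg_repRegular N
  have hAi := (hreg a A hAa).1
  have hBi := (hreg b B hBb).1
  have hCi := (hreg c C hCc).1
  have hEi := (hreg e E hEe).1
  refine ⟨?_, ?_, ?_, ?_⟩
  · have : MDiff (C * (dH A * B - A * dH B)) := hC.mul ((hdA.mul hB).sub (hA.mul hdB))
    exact this
  · have : MDiff (E * (A * B)) := hE.mul (hA.mul hB)
    exact this
  · have hrep : Rep N (E * (A * B)) (e * (a * b)) := by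
      have := Fermat.Agent.H44.LaurentRel.mul hEe (Fermat.Agent.H44.LaurentRel.mul hAa hBb)
      exact this
    have hne : e * (a * b) ≠ 0 := mul_ne_zero he (mul_ne_zero ha hb)
    exact lfg_rep_ne_zero hne hrep
  · intro γ hγ z
    have h1 : dH A (γ • z) = denom γ z ^ 2 * dH A z := lfg_dH_smul hA γ (hAi γ hγ) z
    have h2 : dH B (γ • z) = denom γ z ^ 2 * dH B z := lfg_dH_smul hB γ (hBi γ hγ) z
    simp only [logNum, logDen]
    rw [h1, h2, hAi γ hγ z, hBi γ hγ z, hCi γ hγ z, hEi γ hγ z]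
    ring

end Fermat.Agent.H58.MWDiv

end
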